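import Fermat.Agent.S33.N4.Interp

set_option autoImplicit false

/-!
# S33 / EV / Alg : the algebraic core of (EV), for a finite family of values
-/

namespace Fermat.Agent.S33.EV

open Polynomial Fermat.Agent.S33.N4

theorem intP_X_sub_C {K : Type} [Field K] (A : ValuationSubring K) {a : K} (ha : a ∈ A) :
    IntP A (X - C a) := by
  intro i
  rw [coeff_sub, coeff_X, coeff_C]
  refine A.sub_mem ?_ ?_ <;> split_ifs <;>
    first | exact A.one_mem | exact A.zero_mem | exact ha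

theorem zpow_eq_div_toNat {K : Type} [Field K] (a : K) (n : ℤ) (ha : a ≠ 0) :
    a ^ n = a ^ n.toNat / a ^ (-n).toNat := by
  rw [eq_div_iff (pow_ne_zero _ ha), ← zpow_natCast, ← zpow_natCast, ← zpow_add₀ ha]
  congr 1
  omega

theorem ev_algB {K : Type} [Field K] [IsAlgClosed K] [CharZero K] (A : ValuationSubring K)
    (hinf : ∀ s : Finset K, ∃ t ∈ A, ∀ γ ∈ s, t - γ ∉ A.nonunits)
    (m : ℕ) (hm : 0 < m) (ϖ : K) {ι : Type} (s : Finset ι) (g : ι → K) (d : ι → ℤ)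
    (hd : ∑ i ∈ s, d i = 0) (Γ : Finset K) (hΓ : ∀ γ ∈ Γ, γ ∈ A ∧ γ ∉ A.nonunits)
    (hg : ∀ i ∈ s, g i ∈ A ∧ ∃ γ ∈ Γ, g i - γ ∈ A.nonunits)
    (hR : ∀ t ∈ A, (∀ γ ∈ Γ, t - γ ∉ A.nonunits) →
      ∃ a ∈ A, (∏ i ∈ s, (t - g i) ^ d i) ^ m - 1 = ϖ * a) :
    ∃ a ∈ A, (m : K) * (∏ i ∈ s, (0 - g i) ^ d i - 1) = ϖ * a := by
  classical
  haveI : NeZero m := ⟨hm.ne'⟩
  obtain ⟨ζ, hζ⟩ := HasEnoughRootsOfUnity.exists_primitiveRoot K m
  set P1 : K[X] := ∏ i ∈ s, (X - C (g i)) ^ (d i).toNat with hP1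
  set P2 : K[X] := ∏ i ∈ s, (X - C (g i)) ^ (-d i).toNat with hP2
  have h1 : P1.Monic := monic_prod_of_monic _ _ fun i _ => (monic_X_sub_C _).pow _
  have h2 : P2.Monic := monic_prod_of_monic _ _ fun i _ => (monic_X_sub_C _).pow _
  have hdeg1 : P1.natDegree = ∑ i ∈ s, (d i).toNat := by
    rw [hP1, natDegree_prod_of_monic _ _ fun i _ => (monic_X_sub_C _).pow _]
    refine Finset.sum_congr rfl fun i _ => ?_
    rw [(monic_X_sub_C _).natDegree_pow, natDegree_X_sub_C, mul_one]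
  have hdeg2 : P2.natDegree = ∑ i ∈ s, (-d i).toNat := by
    rw [hP2, natDegree_prod_of_monic _ _ fun i _ => (monic_X_sub_C _).pow _]
    refine Finset.sum_congr rfl fun i _ => ?_
    rw [(monic_X_sub_C _).natDegree_pow, natDegree_X_sub_C, mul_one]
  have hdeg : P1.natDegree = P2.natDegree := by
    rw [hdeg1, hdeg2]
    have e : ((∑ i ∈ s, (d i).toNat : ℕ) : ℤ) - ((∑ i ∈ s, (-d i).toNat : ℕ) : ℤ) = 0 := by
      rw [Nat.cast_sum, Nat.cast_sum, ← Finset.sum_sub_distrib, ← hd]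
      refine Finset.sum_congr rfl fun i _ => ?_
      omega
    omega
  have hA1 : IntP A P1 := Finset.prod_induction _ (IntP A) (fun _ _ ha hb => ha.mul hb)
    (IntP.one A) fun i hi => (intP_X_sub_C A (hg i hi).1).pow _
  have hA2 : IntP A P2 := Finset.prod_induction _ (IntP A) (fun _ _ ha hb => ha.mul hb)
    (IntP.one A) fun i hi => (intP_X_sub_C A (hg i hi).1).pow _
  -- units
  have hunit : ∀ t ∈ A, (∀ γ ∈ Γ, t - γ ∉ A.nonunits) → ∀ i ∈ s,
      t - g i ≠ 0 ∧ (t - g i)⁻¹ ∈ A := by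
    intro t ht hgen i hi
    obtain ⟨γ, hγ, hx⟩ := (hg i hi).2
    have hn : t - g i ∉ A.nonunits := by
      intro hy
      apply hgen γ hγ
      rw [A.mem_nonunits_iff] at hx hy ⊢
      have e : t - γ = (t - g i) + (g i - γ) := by ring
      rw [e]
      exact Valuation.map_add_lt _ hy hx
    have h0 : t - g i ≠ 0 := by
      intro h0
      apply hn
      rw [h0, A.mem_nonunits_iff, map_zero]
      exact zero_lt_one
    refine ⟨h0, ?_⟩
    rw [A.mem_nonunits_iff, not_lt] at hn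
    rw [← A.valuation_le_one_iff, map_inv₀]
    exact inv_le_one_of_one_le₀ hn
  have heval1 : ∀ t, P1.eval t = ∏ i ∈ s, (t - g i) ^ (d i).toNat := by
    intro t
    rw [hP1, eval_prod]
    refine Finset.prod_congr rfl fun i _ => ?_
    rw [eval_pow, eval_sub, eval_X, eval_C]
  have heval2 : ∀ t, P2.eval t = ∏ i ∈ s, (t - g i) ^ (-d i).toNat := by
    intro t
    rw [hP2, eval_prod]
    refine Finset.prod_congr rfl fun i _ => ?_
    rw [eval_pow, eval_sub, eval_X, eval_C]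
  have hquot : ∀ t ∈ A, (∀ γ ∈ Γ, t - γ ∉ A.nonunits) →
      ∏ i ∈ s, (t - g i) ^ d i = P1.eval t / P2.eval t := by
    intro t ht hgen
    rw [heval1, heval2, ← Finset.prod_div_distrib]
    exact Finset.prod_congr rfl fun i hi => zpow_eq_div_toNat _ _ (hunit t ht hgen i hi).1
  have hP2u : ∀ t ∈ A, (∀ γ ∈ Γ, t - γ ∉ A.nonunits) →
      P2.eval t ≠ 0 ∧ (P2.eval t)⁻¹ ∈ A := by
    intro t ht hgen
    rw [heval2]
    refine Finset.prod_induction _ (fun x : K => x ≠ 0 ∧ x⁻¹ ∈ A) ?_ ?_ ?_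
    · rintro a b ⟨ha, ha'⟩ ⟨hb, hb'⟩
      exact ⟨mul_ne_zero ha hb, by rw [mul_inv]; exact A.mul_mem _ _ ha' hb'⟩
    · exact ⟨one_ne_zero, by rw [inv_one]; exact A.one_mem⟩
    · intro i hi
      have := hunit t ht hgen i hi
      exact ⟨pow_ne_zero _ this.1, by rw [← inv_pow]; exact A.pow_mem this.2 _⟩
  have hQ : ∀ t ∈ A, (∀ γ ∈ Γ, t - γ ∉ A.nonunits) →
      ∃ a ∈ A, (C 1 * P1 ^ m - P2 ^ m).eval t = ϖ * a := by
    intro t ht hgen
    obtain ⟨a, ha, e⟩ := hR t ht hgen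
    rw [hquot t ht hgen] at e
    have hu := hP2u t ht hgen
    refine ⟨a * P2.eval t ^ m, A.mul_mem _ _ ha (A.pow_mem (hA2.eval_mem ht) _), ?_⟩
    rw [eval_sub, eval_mul, eval_C, eval_pow, eval_pow, one_mul]
    have e2 : P1.eval t ^ m = (P1.eval t / P2.eval t) ^ m * P2.eval t ^ m := by
      rw [div_pow, div_mul_cancel₀ _ (pow_ne_zero _ hu.1)]
    rw [e2]
    linear_combination (P2.eval t ^ m) * e
  have hcoef := coeff_dv_of_eval A hinf ϖ (C 1 * P1 ^ m - P2 ^ m) Γ hQ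
  have h0gen : ∀ γ ∈ Γ, (0 : K) - γ ∉ A.nonunits := by
    intro γ hγ hx
    apply (hΓ γ hγ).2
    rw [A.mem_nonunits_iff] at hx ⊢
    rwa [zero_sub, Valuation.map_neg] at hx
  have hu0 := hP2u 0 A.zero_mem h0gen
  have := ev_eval A m ζ hζ ϖ P1 P2 h1 h2 hdeg hA1 hA2 1 hcoef 0 A.zero_mem hu0.1 hu0.2
  rw [hquot 0 A.zero_mem h0gen]
  exact this

end Fermat.Agent.S33.EV
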