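import Fermat.Agent.S41.WP.Weil
import Fermat.Agent.S33.EV.AlgB

set_option autoImplicit false

/-!
# S33 / EV / WR : `(N4) + (N5)` from Weil reciprocity (no norms, no models)

`f = 1 + ϖ f₁`, `div f = m D`; `G` such that at every place `v` either `f₁(v) ∈ A` or
`G(v) ≡ γ` for some `γ` in a finite set `Γ` of units of `A`.
Then `f(E) ∈ 1 + ϖ A` for `E = div(G)/m` and `m (G(D) - 1) ∈ ϖ A`.
-/

noncomputable section

namespace Fermat.Agent.S33.EV

open AlgebraicCurve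
open Fermat.Agent.S24 (IsFF1)
open Fermat.Agent.DIV (valAt)
open Fermat.Agent.S19 (evD IsDiv WRStatement)
open Fermat.Agent.S19.Pair
open Fermat.Agent.GES (Vm divBy)
open Fermat.Agent.S41.WP

section One

variable {K : Type} [Field K] (A : ValuationSubring K)

/-- `u ∈ 1 + ϖ A`. -/
def One (ϖ u : K) : Prop := ∃ a ∈ A, u - 1 = ϖ * a

variable {A}

theorem One.one (ϖ : K) : One A ϖ 1 := ⟨0, A.zero_mem, by ring⟩

theorem One.mul {ϖ u u' : K} (hϖ : ϖ ∈ A) (hu : One A ϖ u) (hu' : One A ϖ u') :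
    One A ϖ (u * u') := by
  obtain ⟨a, ha, e⟩ := hu
  obtain ⟨a', ha', e'⟩ := hu'
  refine ⟨a + a' + ϖ * a * a', A.add_mem _ _ (A.add_mem _ _ ha ha')
    (A.mul_mem _ _ (A.mul_mem _ _ hϖ ha) ha'), ?_⟩
  have h1 : u = 1 + ϖ * a := by linear_combination e
  have h2 : u' = 1 + ϖ * a' := by linear_combination e'
  rw [h1, h2]; ring

theorem inv_one_add_mem {x : K} (hx : x ∈ A.nonunits) : (1 + x)⁻¹ ∈ A ∧ 1 + x ≠ 0 := by
  have h1 : A.valuation x < 1 := (A.mem_nonunits_iff).1 hx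
  have h2 : A.valuation (1 + x) = 1 := Valuation.map_one_add_of_lt _ h1
  constructor
  · rw [← A.valuation_le_one_iff, map_inv₀, h2, inv_one]
  · intro h0
    rw [h0, map_zero] at h2
    exact zero_ne_one h2

theorem mul_mem_nonunits {ϖ a : K} (hϖ : ϖ ∈ A.nonunits) (ha : a ∈ A) : ϖ * a ∈ A.nonunits := by
  rw [A.mem_nonunits_iff] at hϖ ⊢
  rw [map_mul]
  exact mul_lt_one_of_lt_of_le hϖ ((A.valuation_le_one_iff a).2 ha)

theorem mem_of_mem_nonunits {ϖ : K} (hϖ : ϖ ∈ A.nonunits) : ϖ ∈ A :=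
  (A.valuation_le_one_iff ϖ).1 ((A.mem_nonunits_iff).1 hϖ).le

theorem One.ne_zero {ϖ u : K} (hϖ : ϖ ∈ A.nonunits) (hu : One A ϖ u) : u ≠ 0 := by
  obtain ⟨a, ha, e⟩ := hu
  have h1 : u = 1 + ϖ * a := by linear_combination e
  rw [h1]
  exact (inv_one_add_mem (mul_mem_nonunits hϖ ha)).2

theorem One.inv {ϖ u : K} (hϖ : ϖ ∈ A.nonunits) (hu : One A ϖ u) : One A ϖ u⁻¹ := by
  have hu0 := hu.ne_zero hϖ
  obtain ⟨a, ha, e⟩ := hu
  have h1 : u = 1 + ϖ * a := by linear_combination e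
  have h2 := (inv_one_add_mem (mul_mem_nonunits hϖ ha)).1
  rw [← h1] at h2
  refine ⟨-(a * u⁻¹), A.neg_mem _ (A.mul_mem _ _ ha h2), ?_⟩
  field_simp
  linear_combination -e

theorem One.pow {ϖ u : K} (hϖ : ϖ ∈ A) (hu : One A ϖ u) (n : ℕ) : One A ϖ (u ^ n) := by
  induction n with
  | zero => rw [pow_zero]; exact One.one ϖ
  | succ n ih => rw [pow_succ]; exact ih.mul hϖ hu

theorem One.zpow {ϖ u : K} (hϖ : ϖ ∈ A.nonunits) (hu : One A ϖ u) (n : ℤ) :
    One A ϖ (u ^ n) := by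
  obtain ⟨k, rfl | rfl⟩ := n.eq_nat_or_neg
  · rw [zpow_natCast]; exact hu.pow (mem_of_mem_nonunits hϖ) k
  · rw [zpow_neg, zpow_natCast]; exact (hu.pow (mem_of_mem_nonunits hϖ) k).inv hϖ

theorem One.prod {ϖ : K} (hϖ : ϖ ∈ A) {ι : Type*} (s : Finset ι) (u : ι → K)
    (hu : ∀ i ∈ s, One A ϖ (u i)) : One A ϖ (∏ i ∈ s, u i) :=
  Finset.prod_induction u (One A ϖ) (fun _ _ ha hb => ha.mul hϖ hb) (One.one ϖ) hu

end One

variable {K F : Type} [Field K] [Field F] [Algebra K F] [IsAlgClosed K] [CharZero K]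
  (h : IsFF1 K F) (A : ValuationSubring K)

/-- `z` is regular at `v` with value in `A`. -/
def IntAt (v : Place K F) (z : F) : Prop := z ∈ v.toValuationSubring ∧ valAt h v z ∈ A

/-- `G` is regular at `v` with value `≡ γ` for some `γ ∈ Γ`. -/
def NearAt (Γ : Finset K) (v : Place K F) (G : F) : Prop :=
  G ∈ v.toValuationSubring ∧ ∃ γ ∈ Γ, valAt h v G - γ ∈ A.nonunits

variable {h A}

theorem IntAt.one_add {v : Place K F} {f1 : F} (hv : IntAt h A v f1) (ϖ : K) :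
    1 + algebraMap K F ϖ * f1 ∈ v.toValuationSubring ∧
      One A ϖ (valAt h v (1 + algebraMap K F ϖ * f1)) := by
  have h1 : algebraMap K F ϖ * f1 ∈ v.toValuationSubring := mul_mem (v.algebraMap_mem' ϖ) hv.1
  refine ⟨add_mem (one_mem _) h1, valAt h v f1, hv.2, ?_⟩
  rw [Fermat.Agent.DIV.valAt_add h v (one_mem _) h1, Fermat.Agent.DIV.valAt_one,
    Fermat.Agent.DIV.valAt_mul h v (v.algebraMap_mem' ϖ) hv.1, Fermat.Agent.DIV.valAt_algebraMap]
  ring

theorem IntAt.ord_eq_zero {v : Place K F} {f1 : F} (hv : IntAt h A v f1) {ϖ : K}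
    (hϖ : ϖ ∈ A.nonunits) : v.ord (1 + algebraMap K F ϖ * f1) = 0 :=
  Fermat.Agent.DIV.ord_eq_zero_of_valAt_ne_zero h v ((hv.one_add ϖ).2.ne_zero hϖ)

/-- `f(E) ∈ 1 + ϖ A` if `f₁` is integral on the support of `E`. -/
theorem one_evD {f1 : F} {ϖ : K} (hϖ : ϖ ∈ A.nonunits) (E : Divisor K F)
    (hE : ∀ v, E v ≠ 0 → IntAt h A v f1) : One A ϖ (evD h E (1 + algebraMap K F ϖ * f1)) := by
  unfold evD Finsupp.prod
  refine One.prod (mem_of_mem_nonunits hϖ) _ _ fun v hv => ?_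
  exact ((hE v (Finsupp.mem_support_iff.1 hv)).one_add ϖ).2.zpow hϖ _

theorem unit_of_near {Γ : Finset K} (hΓ : ∀ γ ∈ Γ, γ ∈ A ∧ γ ∉ A.nonunits) {g : K}
    (hg : ∃ γ ∈ Γ, g - γ ∈ A.nonunits) : g ∈ A ∧ g ≠ 0 := by
  obtain ⟨γ, hγ, hx⟩ := hg
  have h1 := hΓ γ hγ
  refine ⟨?_, ?_⟩
  · have := A.add_mem _ _ (mem_of_mem_nonunits hx) h1.1
    rwa [sub_add_cancel] at this
  · rintro rfl
    rw [zero_sub] at hx
    apply h1.2
    rw [A.mem_nonunits_iff] at hx ⊢
    rwa [Valuation.map_neg] at hx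

theorem NearAt.ord_eq_zero {Γ : Finset K} (hΓ : ∀ γ ∈ Γ, γ ∈ A ∧ γ ∉ A.nonunits)
    {v : Place K F} {G : F} (hv : NearAt h A Γ v G) : v.ord G = 0 :=
  Fermat.Agent.DIV.ord_eq_zero_of_valAt_ne_zero h v (unit_of_near hΓ hv.2).2

/-- generic `t`: `t - G` does not vanish near. -/
theorem NearAt.sub_ne {Γ : Finset K} {v : Place K F} {G : F} (hv : NearAt h A Γ v G) {t : K}
    (ht : ∀ γ ∈ Γ, t - γ ∉ A.nonunits) :
    algebraMap K F t - G ∈ v.toValuationSubring ∧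
      valAt h v (algebraMap K F t - G) = t - valAt h v G ∧ t - valAt h v G ≠ 0 := by
  refine ⟨sub_mem (v.algebraMap_mem' t) hv.1, ?_, ?_⟩
  · rw [Fermat.Agent.DIV.valAt_sub h v (v.algebraMap_mem' t) hv.1,
      Fermat.Agent.DIV.valAt_algebraMap]
  · obtain ⟨γ, hγ, hx⟩ := hv.2
    intro h0
    apply ht γ hγ
    have : t - γ = valAt h v G - γ := by linear_combination h0
    rw [this]; exact hx

section Main

variable (hWR : WRStatement)
  (hinf : ∀ s : Finset K, ∃ t ∈ A, ∀ γ ∈ s, t - γ ∉ A.nonunits)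
  {m : ℕ} [NeZero m] {ϖ : K} (hϖ : ϖ ∈ A.nonunits) {f1 G : F}
  (hf : InD (K := K) m (1 + algebraMap K F ϖ * f1))
  {Γ : Finset K} (hΓ : ∀ γ ∈ Γ, γ ∈ A ∧ γ ∉ A.nonunits)
  (hkey : ∀ v : Place K F, IntAt h A v f1 ∨ NearAt h A Γ v G)

include hϖ hkey in
theorem near_of_ord_ne {v : Place K F} (hv : v.ord (1 + algebraMap K F ϖ * f1) ≠ 0) :
    NearAt h A Γ v G :=
  (hkey v).resolve_left fun h1 => hv (h1.ord_eq_zero hϖ)

include hϖ hkey hΓ in
theorem disj_of_key : Disj (K := K) (1 + algebraMap K F ϖ * f1) G := by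
  intro v
  by_cases hv : v.ord (1 + algebraMap K F ϖ * f1) = 0
  · exact Or.inl hv
  · exact Or.inr ((near_of_ord_ne hϖ hkey hv).ord_eq_zero hΓ)

include hϖ hkey hΓ in
/-- **(N5)**. -/
theorem one_evD_dv : One A ϖ (evD h (dv h m G) (1 + algebraMap K F ϖ * f1)) := by
  refine one_evD hϖ _ fun v hv => (hkey v).resolve_right fun h1 => hv ?_
  rw [dv_apply, h1.ord_eq_zero hΓ, Int.zero_ediv]

include hϖ hkey in
theorem near_of_dv_ne {v : Place K F} (hv : dv h m (1 + algebraMap K F ϖ * f1) v ≠ 0) :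
    NearAt h A Γ v G := by
  refine near_of_ord_ne hϖ hkey fun h0 => hv ?_
  rw [dv_apply, h0, Int.zero_ediv]

include hϖ hkey in
theorem evD_sub_eq {t : K} (ht : ∀ γ ∈ Γ, t - γ ∉ A.nonunits) :
    evD h (dv h m (1 + algebraMap K F ϖ * f1)) (algebraMap K F t - G) =
      ∏ v ∈ (dv h m (1 + algebraMap K F ϖ * f1)).support,
        (t - valAt h v G) ^ (dv h m (1 + algebraMap K F ϖ * f1) v) := by
  unfold evD Finsupp.prod
  refine Finset.prod_congr rfl fun v hv => ?_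
  show valAt h v (algebraMap K F t - G) ^ _ = _
  rw [((near_of_dv_ne hϖ hkey (Finsupp.mem_support_iff.1 hv)).sub_ne ht).2.1]

include hWR hϖ hkey hf in
theorem one_pow_of_generic {t : K} (ht : ∀ γ ∈ Γ, t - γ ∉ A.nonunits) :
    One A ϖ ((∏ v ∈ (dv h m (1 + algebraMap K F ϖ * f1)).support,
        (t - valAt h v G) ^ (dv h m (1 + algebraMap K F ϖ * f1) v)) ^ m) := by
  set f : F := 1 + algebraMap K F ϖ * f1 with hfdef
  by_cases hφ : algebraMap K F t - G = 0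
  · -- then the support is empty
    have hD : (dv h m f).support = ∅ := by
      rw [Finset.eq_empty_iff_forall_notMem]
      intro v hv
      have h1 := (near_of_dv_ne hϖ hkey (Finsupp.mem_support_iff.1 hv)).sub_ne ht
      rw [hφ, Fermat.Agent.DIV.valAt_zero] at h1
      exact h1.2.2 h1.2.1.symm
    rw [hD, Finset.prod_empty, one_pow]
    exact One.one ϖ
  · have hU : UnitOn (dv h m f) (algebraMap K F t - G) :=
      ⟨hφ, fun v hv => by
        have h1 := (near_of_dv_ne hϖ hkey hv).sub_ne ht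
        exact Fermat.Agent.DIV.ord_eq_zero_of_valAt_ne_zero h v (by rw [h1.2.1]; exact h1.2.2)⟩
    have hdiv : IsDiv (algebraMap K F t - G) (dvf h (algebraMap K F t - G)) :=
      ⟨hφ, fun v => (dvf_apply h _ v).symm⟩
    have hw := hWR K F h f (algebraMap K F t - G) ((m : ℤ) • dv h m f)
      (dvf h (algebraMap K F t - G)) (isDiv_dv h hf) hdiv (by
        intro v
        by_cases hv : dv h m f v = 0
        · left; rw [Finsupp.smul_apply, hv, smul_zero]
        · right; rw [dvf_apply]; exact hU.2 v hv)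
    rw [evD_zsmul h hU, zpow_natCast, evD_sub_eq hϖ hkey ht] at hw
    rw [← hw]
    refine one_evD hϖ _ fun v hv => (hkey v).resolve_right fun h1 => hv ?_
    rw [dvf_apply]
    have h2 := h1.sub_ne ht
    exact Fermat.Agent.DIV.ord_eq_zero_of_valAt_ne_zero h v (by rw [h2.2.1]; exact h2.2.2)

include hWR hinf hϖ hkey hf hΓ in
/-- **(N4) = (EV)**. -/
theorem ev_main (hG : G ≠ 0) :
    ∃ a ∈ A, (m : K) * (evD h (dv h m (1 + algebraMap K F ϖ * f1)) G - 1) = ϖ * a := by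
  set f : F := 1 + algebraMap K F ϖ * f1 with hfdef
  have hdeg : ∑ v ∈ (dv h m f).support, dv h m f v = 0 := by
    rw [← Fermat.Agent.S24.principal_degree_eq_sum h]
    exact degree_dv h hf
  have key := ev_algB A hinf m (Nat.pos_of_ne_zero (NeZero.ne m)) ϖ (dv h m f).support
    (fun v => valAt h v G) (fun v => dv h m f v) hdeg Γ hΓ
    (fun v hv => by
      have h1 := near_of_dv_ne hϖ hkey (Finsupp.mem_support_iff.1 hv)
      exact ⟨(unit_of_near hΓ h1.2).1, h1.2⟩)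
    (fun t _ ht => one_pow_of_generic hWR hϖ hf hkey ht)
  have h0 : ∀ γ ∈ Γ, (0 : K) - γ ∉ A.nonunits := by
    intro γ hγ hx
    apply (hΓ γ hγ).2
    rw [A.mem_nonunits_iff] at hx ⊢
    rwa [zero_sub, Valuation.map_neg] at hx
  have h1 := evD_sub_eq (h := h) (m := m) hϖ hkey h0
  rw [← h1] at key
  have hUG : UnitOn (dv h m f) G :=
    ⟨hG, fun v hv => (near_of_dv_ne hϖ hkey hv).ord_eq_zero hΓ⟩
  have h2 : algebraMap K F 0 - G = algebraMap K F (-1) * G := by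
    rw [map_zero, map_neg, map_one]; ring
  rw [h2, evD_mul h (unitOn_const _ (neg_ne_zero.2 one_ne_zero)) hUG,
    evD_const h (degree_dv h hf) (-1) (neg_ne_zero.2 one_ne_zero), one_mul] at key
  exact key

end Main

end Fermat.Agent.S33.EV
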