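import Fermat.Agent.S31.RootsOfUnity

/-!
# S33 / (EV) : the residue field of a valuation ring of `ℚ̄` above `p` is infinite
-/

set_option autoImplicit false

namespace Fermat.Agent.S33.EV

open Fermat.Agent.S31

theorem exists_avoid (A : ValuationSubring Qb) {p : ℕ} (hp : p.Prime) (hA : A.LiesOverPrime p)
    (s : Finset Qb) : ∃ t ∈ A, ∀ γ ∈ s, t - γ ∉ A.nonunits := by
  classical
  set m : ℕ := p * (s.card + 1) + 1 with hm
  have hm0 : m ≠ 0 := by omega
  have hpm : ¬ p ∣ m := by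
    intro hd
    have h1 : p ∣ 1 := (Nat.dvd_add_right (Dvd.intro _ rfl)).mp hd
    exact hp.one_lt.ne' (Nat.dvd_one.mp h1)
  have hcard : s.card < m := by
    have := hp.pos
    nlinarith
  obtain ⟨ζ, hζ⟩ : ∃ ζ : Qb, IsPrimitiveRoot ζ m := by
    have : NeZero m := ⟨hm0⟩
    have : NeZero ((m : ℕ) : Qb) := ⟨Nat.cast_ne_zero.mpr hm0⟩
    exact HasEnoughRootsOfUnity.exists_primitiveRoot Qb m
  set R := Polynomial.nthRootsFinset m (1 : Qb) with hR
  have hRcard : R.card = m := hζ.card_nthRootsFinset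
  have hRpow : ∀ t ∈ R, t ^ m = 1 := fun t ht =>
    (Polynomial.mem_nthRootsFinset (Nat.pos_of_ne_zero hm0) (1 : Qb)).mp ht
  by_contra hcon
  push Not at hcon
  have hbad : ∀ t ∈ R, ∃ γ ∈ s, t - γ ∈ A.nonunits := fun t ht =>
    hcon t (mem_of_pow_eq_one A hm0 (hRpow t ht))
  choose! γ hγs hγ using hbad
  have hinj : Set.InjOn γ (R : Set Qb) := by
    intro a ha b hb hab
    refine eq_of_sub_mem_nonunits hp hA hpm (hRpow a ha) (hRpow b hb) ?_
    have h1 := hγ a ha
    have h2 := hγ b hb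
    rw [← hab] at h2
    rw [ValuationSubring.mem_nonunits_iff] at h1 h2 ⊢
    have : a - b = (a - γ a) - (b - γ a) := by ring
    rw [this]
    exact Valuation.map_sub_lt _ h1 h2
  have hle : R.card ≤ s.card := Finset.card_le_card_of_injOn γ (fun t ht => hγs t ht) hinj
  omega

end Fermat.Agent.S33.EV
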