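import Fermat.Agent.S33.EV.WR
import Fermat.Agent.S33.EV.Avoid
import Fermat.Agent.S33.N67

set_option autoImplicit false

/-!
# S33 / EV / Main : `(N4) + (N5) + (N6)` on `X₀(N)`, from a pointwise hypothesis

`x = [f]`, `f = 1 + p ^ (n+1) f₁`; `y = [G]`; at every place `v` of `F_N / ℚ̄` either `f₁(v) ∈ A`
or `G(v) ≡ γ mod 𝔪_A` for some `γ` in a finite set `Γ` of units of `A`.  Then `e(x, y) = 1`.
-/

noncomputable section

namespace Fermat.Agent.S33.EV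

open AlgebraicCurve ModularCurve
open Fermat.Agent.S24 (Kb FN IsFF1 isFF1_FN)
open Fermat.Agent.DIV (valAt)
open Fermat.Agent.S19 (evD IsDiv WRStatement)
open Fermat.Agent.S19.Pair
open Fermat.Agent.GES
open Fermat.Agent.S41.WP

theorem weil_eq_one_of_key (N : ℕ) [NeZero N] {A : ValuationSubring Kb} {p : ℕ} (hp : p.Prime)
    (hp2 : p ≠ 2) (hA : A.LiesOverPrime p) (n : ℕ) [NeZero (p ^ n)] (f G : DN N (p ^ n))
    (f1 : FN N) (hff : cf f = 1 + algebraMap Kb (FN N) ((p : Kb) ^ (n + 1)) * f1)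
    (Γ : Finset Kb) (hΓ : ∀ γ ∈ Γ, γ ∈ A ∧ γ ∉ A.nonunits)
    (hkey : ∀ v : Place Kb (FN N), IntAt (isFF1_FN N) A v f1 ∨ NearAt (isFF1_FN N) A Γ v (cf G)) :
    weil (isFF1_FN N) (p ^ n) (Vm.mk f) (Vm.mk G) = 1 := by
  have hpA : (p : Kb) ∈ A.nonunits := hA
  have hpA' : (p : Kb) ∈ A := mem_of_mem_nonunits hpA
  have hϖ : (p : Kb) ^ (n + 1) ∈ A.nonunits := by
    rw [pow_succ']
    exact mul_mem_nonunits hpA (A.pow_mem hpA' n)
  have hf : InD (K := Kb) (p ^ n) (1 + algebraMap Kb (FN N) ((p : Kb) ^ (n + 1)) * f1) := by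
    rw [← hff]; exact inD_coe f
  have hp0 : (p : Kb) ≠ 0 := by exact_mod_cast hp.ne_zero
  refine weil_eq_one_of_close N hp hp2 hA n f G ?_ ?_ ?_
  · rw [hff]; exact disj_of_key hϖ hΓ hkey
  · rw [hff]
    obtain ⟨a, ha, e⟩ := one_evD_dv (h := isFF1_FN N) (m := p ^ n) hϖ hΓ hkey
    exact ⟨(p : Kb) ^ n * a, A.mul_mem _ _ (A.pow_mem hpA' n) ha, by rw [e]; ring⟩
  · rw [hff]
    obtain ⟨a, ha, e⟩ := ev_main (h := isFF1_FN N) (m := p ^ n) S19.wr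
      (fun s => exists_avoid A hp hA s) hϖ hf hΓ hkey (G : (FN N)ˣ).ne_zero
    refine ⟨a, ha, ?_⟩
    have h1 : (p : Kb) ^ n ≠ 0 := pow_ne_zero _ hp0
    apply mul_left_cancel₀ h1
    rw [Nat.cast_pow] at e
    rw [e]; ring

end Fermat.Agent.S33.EV
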