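import Mathlib

set_option autoImplicit false

/-!
# S33 / (EV) : a polynomial whose values at almost all residue classes are divisible by `w` has all its
coefficients divisible by `w`
-/

namespace Fermat.Agent.S33.EV

open Polynomial

variable {K : Type*} [Field K] (A : ValuationSubring K)

theorem exists_mul_iff (y w : K) : (∃ a ∈ A, y = w * a) ↔ A.valuation y ≤ A.valuation w := by
  constructor
  · rintro ⟨a, ha, rfl⟩
    rw [map_mul]
    calc A.valuation w * A.valuation a ≤ A.valuation w * 1 :=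
          mul_le_mul' le_rfl ((A.valuation_le_one_iff a).mpr ha)
      _ = A.valuation w := mul_one _
  · intro h
    by_cases hw : w = 0
    · rw [hw, map_zero, le_zero_iff, map_eq_zero] at h
      exact ⟨0, A.zero_mem, by rw [h, mul_zero]⟩
    · refine ⟨w⁻¹ * y, ?_, by rw [mul_inv_cancel_left₀ hw]⟩
      rw [← A.valuation_le_one_iff, map_mul, map_inv₀]
      have hvw : A.valuation w ≠ 0 := (Valuation.ne_zero_iff _).mpr hw
      calc (A.valuation w)⁻¹ * A.valuation y ≤ (A.valuation w)⁻¹ * A.valuation w :=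
            mul_le_mul' le_rfl h
        _ = 1 := inv_mul_cancel₀ hvw

theorem exists_max_coeff (Q : K[X]) (hQ : Q ≠ 0) :
    ∃ i₀, Q.coeff i₀ ≠ 0 ∧ ∀ i, A.valuation (Q.coeff i) ≤ A.valuation (Q.coeff i₀) := by
  classical
  have hne : Q.support.Nonempty := by
    rwa [Finset.nonempty_iff_ne_empty, Ne, Polynomial.support_eq_empty]
  obtain ⟨i₁, hi₁, hmax⟩ :=
    Finset.exists_max_image Q.support (fun i => A.valuation (Q.coeff i)) hne
  refine ⟨i₁, Polynomial.mem_support_iff.mp hi₁, fun i => ?_⟩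
  by_cases hi : i ∈ Q.support
  · exact hmax i hi
  · rw [Polynomial.notMem_support_iff.mp hi, map_zero]
    exact zero_le

/-- **interpolation**. -/
theorem coeff_mem_of_eval
    (hinf : ∀ s : Finset K, ∃ t ∈ A, ∀ γ ∈ s, t - γ ∉ A.nonunits)
    (Q : K[X]) (w : K) (s : Finset K)
    (h : ∀ t ∈ A, (∀ γ ∈ s, t - γ ∉ A.nonunits) → ∃ a ∈ A, Q.eval t = w * a) :
    ∀ k, ∃ a ∈ A, Q.coeff k = w * a := by
  classical
  intro k
  by_cases hQ : Q = 0
  · exact ⟨0, A.zero_mem, by simp [hQ]⟩
  obtain ⟨i₀, hi₀, hmax⟩ := exists_max_coeff A Q hQ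
  set c := Q.coeff i₀ with hc
  have hvc : A.valuation c ≠ 0 := (Valuation.ne_zero_iff _).mpr hi₀
  -- the normalised polynomial
  have hlift : C c⁻¹ * Q ∈ Polynomial.lifts A.subtype := by
    rw [Polynomial.lifts_iff_coeff_lifts]
    intro n
    refine ⟨⟨c⁻¹ * Q.coeff n, ?_⟩, by rw [Polynomial.coeff_C_mul]; rfl⟩
    rw [← A.valuation_le_one_iff, map_mul, map_inv₀]
    calc (A.valuation c)⁻¹ * A.valuation (Q.coeff n) ≤ (A.valuation c)⁻¹ * A.valuation c :=
          mul_le_mul' le_rfl (hmax n)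
      _ = 1 := inv_mul_cancel₀ hvc
  obtain ⟨QA, hQA⟩ := hlift
  have hQA' : QA.map A.subtype = C c⁻¹ * Q := hQA
  set Qb := QA.map (IsLocalRing.residue A) with hQb
  have hcoeff : QA.coeff i₀ = 1 := by
    apply Subtype.ext
    have := congrArg (fun P => P.coeff i₀) hQA'
    simp only [Polynomial.coeff_map, Polynomial.coeff_C_mul] at this
    rw [← hc, inv_mul_cancel₀ hi₀] at this
    exact this
  have hQb0 : Qb ≠ 0 := by
    intro h0
    have := congrArg (fun P => P.coeff i₀) h0
    simp only [hQb, Polynomial.coeff_map, hcoeff, map_one, Polynomial.coeff_zero] at this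
    exact one_ne_zero this
  let lft : IsLocalRing.ResidueField A → K := fun r =>
    ((IsLocalRing.residue_surjective r).choose : A)
  have hlft : ∀ r, ∃ a : A, (a : K) = lft r ∧ IsLocalRing.residue A a = r := fun r =>
    ⟨_, rfl, (IsLocalRing.residue_surjective r).choose_spec⟩
  obtain ⟨t, htA, ht⟩ := hinf (s ∪ Qb.roots.toFinset.image lft)
  have hts : ∀ γ ∈ s, t - γ ∉ A.nonunits := fun γ hγ => ht γ (Finset.mem_union_left _ hγ)
  have hnr : Qb.eval (IsLocalRing.residue A ⟨t, htA⟩) ≠ 0 := by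
    intro h0
    have hroot : IsLocalRing.residue A ⟨t, htA⟩ ∈ Qb.roots.toFinset := by
      rw [Multiset.mem_toFinset, Polynomial.mem_roots hQb0]
      exact h0
    obtain ⟨a, ha1, ha2⟩ := hlft (IsLocalRing.residue A ⟨t, htA⟩)
    apply ht (lft (IsLocalRing.residue A ⟨t, htA⟩))
      (Finset.mem_union_right _ (Finset.mem_image_of_mem _ hroot))
    rw [← ha1]
    have h1 : IsLocalRing.residue A (⟨t, htA⟩ - a) = 0 := by rw [map_sub, ha2, sub_self]
    rw [IsLocalRing.residue_eq_zero_iff] at h1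
    have h2 : ((⟨t, htA⟩ - a : A) : K) ∈ A.nonunits := by
      rw [ValuationSubring.mem_nonunits_iff_exists_mem_maximalIdeal]
      exact ⟨(⟨t, htA⟩ - a : A).2, h1⟩
    exact h2
  have hunit : IsUnit (QA.eval ⟨t, htA⟩) := by
    by_contra hnu
    apply hnr
    rw [hQb, Polynomial.eval_map_apply]
    exact (IsLocalRing.residue_eq_zero_iff _).mpr ((IsLocalRing.mem_maximalIdeal _).mpr hnu)
  have hval : A.valuation ((QA.eval ⟨t, htA⟩ : A) : K) = 1 :=
    (A.valuation_eq_one_iff _).mp hunit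
  have heval : ((QA.eval ⟨t, htA⟩ : A) : K) = c⁻¹ * Q.eval t := by
    have h1 : (QA.map A.subtype).eval (A.subtype ⟨t, htA⟩) = A.subtype (QA.eval ⟨t, htA⟩) :=
      Polynomial.eval_map_apply _ _
    rw [hQA', Polynomial.eval_mul, Polynomial.eval_C] at h1
    exact h1.symm
  rw [heval, map_mul, map_inv₀] at hval
  have hvQ : A.valuation (Q.eval t) = A.valuation c := by
    have := congrArg (fun z => A.valuation c * z) hval
    simpa [mul_inv_cancel_left₀ hvc] using this
  rw [exists_mul_iff]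
  calc A.valuation (Q.coeff k) ≤ A.valuation c := hmax k
    _ = A.valuation (Q.eval t) := hvQ.symm
    _ ≤ A.valuation w := (exists_mul_iff A _ _).mp (h t htA hts)

end Fermat.Agent.S33.EV
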