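import Fermat.Agent.S33.EVPoly
import Fermat.Agent.S33.EV.Interp

set_option autoImplicit false

/-!
# S33 / (EV-ALG) : the algebraic half of (EV)
-/

namespace Fermat.Agent.S33.EV

open Polynomial

section
variable {K : Type} [Field K] {ι : Type}

/-- numerator / denominator polynomial. -/
noncomputable def polyOf (s : Finset ι) (g : ι → K) (e : ι → ℕ) : K[X] :=
  ∏ i ∈ s, (X - C (g i)) ^ e i

theorem polyOf_monic (s : Finset ι) (g : ι → K) (e : ι → ℕ) : (polyOf s g e).Monic :=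
  monic_prod_of_monic _ _ fun i _ => (monic_X_sub_C (g i)).pow (e i)

theorem polyOf_natDegree (s : Finset ι) (g : ι → K) (e : ι → ℕ) :
    (polyOf s g e).natDegree = ∑ i ∈ s, e i := by
  unfold polyOf
  rw [natDegree_prod_of_monic _ _ fun i _ => (monic_X_sub_C (g i)).pow (e i)]
  refine Finset.sum_congr rfl fun i _ => ?_
  rw [(monic_X_sub_C (g i)).natDegree_pow, natDegree_X_sub_C, mul_one]

theorem polyOf_eval (s : Finset ι) (g : ι → K) (e : ι → ℕ) (t : K) :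
    (polyOf s g e).eval t = ∏ i ∈ s, (t - g i) ^ e i := by
  unfold polyOf
  rw [eval_prod]
  refine Finset.prod_congr rfl fun i _ => ?_
  simp

theorem polyOf_coeff (A : ValuationSubring K) (s : Finset ι) (g : ι → K) (e : ι → ℕ)
    (hg : ∀ i ∈ s, g i ∈ A) (k : ℕ) : A.valuation ((polyOf s g e).coeff k) ≤ 1 := by
  have hmem : polyOf s g e ∈ Polynomial.lifts A.subtype := by
    unfold polyOf
    refine Subsemiring.prod_mem _ fun i hi => Subsemiring.pow_mem _ ?_ _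
    rw [Polynomial.lifts_iff_coeff_lifts]
    intro n
    refine ⟨(X - C (⟨g i, hg i hi⟩ : A)).coeff n, ?_⟩
    simp only [coeff_sub, coeff_X, coeff_C, map_sub]
    split_ifs <;> simp
  rw [Polynomial.lifts_iff_coeff_lifts] at hmem
  obtain ⟨y, hy⟩ := hmem k
  rw [← hy]
  exact (A.valuation_le_one_iff _).mpr y.2

theorem prod_zpow_eq (s : Finset ι) (x : ι → K) (d : ι → ℤ) (hx : ∀ i ∈ s, x i ≠ 0) :
    ∏ i ∈ s, x i ^ d i =
      (∏ i ∈ s, x i ^ (d i).toNat) / ∏ i ∈ s, x i ^ (-d i).toNat := by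
  rw [← Finset.prod_div_distrib]
  refine Finset.prod_congr rfl fun i hi => ?_
  have h0 := hx i hi
  rw [← zpow_natCast, ← zpow_natCast, ← zpow_sub₀ h0, Int.toNat_sub_toNat_neg]

theorem val_prod_pow_eq_one (A : ValuationSubring K) (s : Finset ι) (x : ι → K) (e : ι → ℕ)
    (hx : ∀ i ∈ s, A.valuation (x i) = 1) : A.valuation (∏ i ∈ s, x i ^ e i) = 1 := by
  rw [map_prod]
  refine Finset.prod_eq_one fun i hi => ?_
  rw [map_pow, hx i hi, one_pow]

end

/-- **(EV-ALG)**. -/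
theorem ev_alg {K : Type} [Field K] [IsAlgClosed K] (A : ValuationSubring K)
    (hinf : ∀ s : Finset K, ∃ t ∈ A, ∀ γ ∈ s, t - γ ∉ A.nonunits)
    (m : ℕ) (hm : 0 < m) (ϖ : K) {ι : Type} (s : Finset ι) (g : ι → K) (d : ι → ℤ)
    (hd : ∑ i ∈ s, d i = 0) (Γ : Finset K) (hΓ : ∀ γ ∈ Γ, γ ∈ A ∧ γ⁻¹ ∈ A)
    (hΓ0 : ∀ γ ∈ Γ, γ ≠ 0)
    (hg : ∀ i ∈ s, g i ∈ A ∧ ∃ γ ∈ Γ, g i - γ ∈ A.nonunits)
    (hR : ∀ t ∈ A, (∀ γ ∈ Γ, t - γ ∉ A.nonunits) →
      ∃ a ∈ A, (∏ i ∈ s, (t - g i) ^ d i) ^ m - 1 = ϖ * a) :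
    ∃ a ∈ A, (m : K) * (∏ i ∈ s, (0 - g i) ^ d i - 1) = ϖ * a := by
  classical
  set v := A.valuation with hv
  set P1 := polyOf s g fun i => (d i).toNat with hP1
  set P2 := polyOf s g fun i => (-d i).toNat with hP2
  have hdeg : P1.natDegree = P2.natDegree := by
    rw [hP1, hP2, polyOf_natDegree, polyOf_natDegree]
    have h1 : ((∑ i ∈ s, (d i).toNat : ℕ) : ℤ) - ((∑ i ∈ s, (-d i).toNat : ℕ) : ℤ) = 0 := by
      rw [Nat.cast_sum, Nat.cast_sum, ← Finset.sum_sub_distrib, ← hd]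
      exact Finset.sum_congr rfl fun i _ => Int.toNat_sub_toNat_neg (d i)
    omega
  -- units
  have hunit : ∀ t ∈ A, (∀ γ ∈ Γ, t - γ ∉ A.nonunits) → ∀ i ∈ s, v (t - g i) = 1 := by
    intro t ht hgen i hi
    obtain ⟨hgi, γ, hγ, hclose⟩ := hg i hi
    have h1 : v (t - γ) = 1 := by
      have hmem : t - γ ∈ A := A.sub_mem ht (hΓ γ hγ).1
      have hle : v (t - γ) ≤ 1 := (A.valuation_le_one_iff _).mpr hmem
      have hnlt : ¬ v (t - γ) < 1 := fun h => hgen γ hγ (A.mem_nonunits_iff.mpr h)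
      exact le_antisymm hle (not_lt.mp hnlt)
    have h2 : v (g i - γ) < 1 := A.mem_nonunits_iff.mp hclose
    have e : t - g i = (t - γ) - (g i - γ) := by ring
    rw [e, Valuation.map_sub_eq_of_lt_left v (by rw [h1]; exact h2), h1]
  have hzero : ∀ γ ∈ Γ, (0 : K) - γ ∉ A.nonunits := by
    intro γ hγ h
    rw [zero_sub] at h
    have h1 : v (-γ) < 1 := A.mem_nonunits_iff.mp h
    rw [Valuation.map_neg] at h1
    have h2 : v γ⁻¹ ≤ 1 := (A.valuation_le_one_iff _).mpr (hΓ γ hγ).2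
    have hvγ : v γ ≠ 0 := (Valuation.ne_zero_iff _).mpr (hΓ0 γ hγ)
    rw [map_inv₀] at h2
    have : (1 : _) ≤ v γ := by
      have := mul_le_mul' h2 (le_refl (v γ))
      rwa [inv_mul_cancel₀ hvγ, one_mul] at this
    exact absurd h1 (not_lt.mpr this)
  have hne : ∀ t ∈ A, (∀ γ ∈ Γ, t - γ ∉ A.nonunits) → ∀ i ∈ s, t - g i ≠ 0 := by
    intro t ht hgen i hi h0
    have := hunit t ht hgen i hi
    rw [h0, map_zero] at this
    exact zero_ne_one this
  have hquot : ∀ t ∈ A, (∀ γ ∈ Γ, t - γ ∉ A.nonunits) →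
      ∏ i ∈ s, (t - g i) ^ d i = P1.eval t / P2.eval t := by
    intro t ht hgen
    rw [hP1, hP2, polyOf_eval, polyOf_eval]
    exact prod_zpow_eq s _ d (hne t ht hgen)
  have hP2val : ∀ t ∈ A, (∀ γ ∈ Γ, t - γ ∉ A.nonunits) → v (P2.eval t) = 1 := by
    intro t ht hgen
    rw [hP2, polyOf_eval]
    exact val_prod_pow_eq_one A s _ _ (hunit t ht hgen)
  -- the polynomial `Q`
  have hQ : ∀ t ∈ A, (∀ γ ∈ Γ, t - γ ∉ A.nonunits) →
      ∃ a ∈ A, (C (1 : K) * P1 ^ m - P2 ^ m).eval t = ϖ * a := by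
    intro t ht hgen
    obtain ⟨a, ha, hEq⟩ := hR t ht hgen
    rw [hquot t ht hgen] at hEq
    have h20 : P2.eval t ≠ 0 := by
      intro h0
      have := hP2val t ht hgen
      rw [h0, map_zero] at this
      exact zero_ne_one this
    have h2A : P2.eval t ∈ A := (A.valuation_le_one_iff _).mp (hP2val t ht hgen).le
    refine ⟨P2.eval t ^ m * a, A.mul_mem _ _ (pow_mem h2A m) ha, ?_⟩
    have : (C (1 : K) * P1 ^ m - P2 ^ m).eval t =
        P2.eval t ^ m * ((P1.eval t / P2.eval t) ^ m - 1) := by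
      simp only [eval_sub, eval_mul, eval_C, eval_pow, one_mul]
      rw [div_pow]
      field_simp
    rw [this, hEq]
    ring
  have hcoef := coeff_mem_of_eval A hinf _ ϖ Γ hQ
  have hcoef' : ∀ k, v ((C (1 : K) * P1 ^ m - P2 ^ m).coeff k) ≤ v ϖ := fun k =>
    (exists_mul_iff A _ _).mp (hcoef k)
  have hfin := ev_eval v m P1 P2 (polyOf_monic _ _ _) (polyOf_monic _ _ _) hdeg
    (polyOf_coeff A s g _ fun i hi => (hg i hi).1) 1 (v ϖ) hcoef' 0 (by rw [map_zero]; exact zero_le)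
  rw [exists_mul_iff, hquot 0 A.zero_mem hzero]
  have h20 : P2.eval 0 ≠ 0 := by
    intro h0
    have := hP2val 0 A.zero_mem hzero
    rw [h0, map_zero] at this
    exact zero_ne_one this
  have e : (m : K) * (P1.eval 0 / P2.eval 0 - 1) =
      (m : K) * (P1.eval 0 - P2.eval 0) * (P2.eval 0)⁻¹ := by
    field_simp
  rw [e, map_mul, map_mul, map_inv₀, hP2val 0 A.zero_mem hzero, inv_one, mul_one]
  exact hfin

end Fermat.Agent.S33.EV
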