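import Fermat.Agent.S33.EV.Alg

/-!
# (EV-ALG), with the hypothesis `γ ∈ A ∧ γ ∉ A.nonunits`

The same statement as `ev_alg`, the units of `A` being written as in helper12's corrected statement.
-/

namespace Fermat.Agent.S33.EV

theorem ev_alg' {K : Type} [Field K] [IsAlgClosed K] (A : ValuationSubring K)
    (hinf : ∀ s : Finset K, ∃ t ∈ A, ∀ γ ∈ s, t - γ ∉ A.nonunits)
    (m : ℕ) (hm : 0 < m) (ϖ : K) {ι : Type} (s : Finset ι) (g : ι → K) (d : ι → ℤ)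
    (hd : ∑ i ∈ s, d i = 0) (Γ : Finset K) (hΓ : ∀ γ ∈ Γ, γ ∈ A ∧ γ ∉ A.nonunits)
    (hg : ∀ i ∈ s, g i ∈ A ∧ ∃ γ ∈ Γ, g i - γ ∈ A.nonunits)
    (hR : ∀ t ∈ A, (∀ γ ∈ Γ, t - γ ∉ A.nonunits) →
      ∃ a ∈ A, (∏ i ∈ s, (t - g i) ^ d i) ^ m - 1 = ϖ * a) :
    ∃ a ∈ A, (m : K) * (∏ i ∈ s, (0 - g i) ^ d i - 1) = ϖ * a := by
  have h1 : ∀ γ ∈ Γ, A.valuation γ = 1 := by
    intro γ hγ
    obtain ⟨h1, h2⟩ := hΓ γ hγ
    rw [A.mem_nonunits_iff, not_lt] at h2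
    exact le_antisymm ((A.valuation_le_one_iff γ).mpr h1) h2
  have h0 : ∀ γ ∈ Γ, γ ≠ 0 := by
    intro γ hγ h
    have := h1 γ hγ
    rw [h, map_zero] at this
    exact zero_ne_one this
  refine ev_alg A hinf m hm ϖ s g d hd Γ (fun γ hγ => ⟨(hΓ γ hγ).1, ?_⟩) h0 hg hR
  rw [← A.valuation_le_one_iff, map_inv₀, h1 γ hγ, inv_one]

end Fermat.Agent.S33.EV
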