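import Mathlib

/-!
# S33 / (EV) : the algebraic core

Over a valuation ring `A` containing a primitive `N`-th root of unity: if `P1`, `P2` are monic of the
same degree and `P1 ^ N ≡ P2 ^ N mod ϖ` then `N * P1 ≡ N * P2 mod ϖ`.
-/

set_option autoImplicit false

namespace Fermat.Agent.S33.EV

open Polynomial

variable {A : Type*} [CommRing A] [IsDomain A] [ValuationRing A]

/-- a finite family of elements of a valuation ring has a member dividing all the others. -/
theorem exists_dvd_all {ι : Type*} (s : Finset ι) (hs : s.Nonempty) (a : ι → A) :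
    ∃ i ∈ s, ∀ j ∈ s, a i ∣ a j := by
  classical
  induction hs using Finset.Nonempty.cons_induction with
  | singleton i => exact ⟨i, Finset.mem_singleton_self i, fun j hj => by
      rw [Finset.mem_singleton.mp hj]⟩
  | cons i s hi hs ih =>
    obtain ⟨k, hk, hkd⟩ := ih
    rcases ValuationRing.dvd_total (a i) (a k) with h | h
    · refine ⟨i, Finset.mem_cons_self i s, fun j hj => ?_⟩
      rcases Finset.mem_cons.mp hj with rfl | hj
      · exact dvd_rfl
      · exact h.trans (hkd j hj)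
    · refine ⟨k, Finset.mem_cons_of_mem hk, fun j hj => ?_⟩
      rcases Finset.mem_cons.mp hj with rfl | hj
      · exact h
      · exact hkd j hj

/-- content decomposition over a valuation ring. -/
theorem exists_content (Q : A[X]) (hQ : Q ≠ 0) :
    ∃ (a : A) (Q' : A[X]), Q = C a * Q' ∧ (∃ i, IsUnit (Q'.coeff i)) := by
  classical
  have hs : Q.support.Nonempty := by
    rwa [Finset.nonempty_iff_ne_empty, Ne, Polynomial.support_eq_empty]
  obtain ⟨i, hi, hd⟩ := exists_dvd_all Q.support hs Q.coeff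
  have hall : ∀ j, Q.coeff i ∣ Q.coeff j := by
    intro j
    by_cases hj : j ∈ Q.support
    · exact hd j hj
    · rw [Polynomial.notMem_support_iff.mp hj]; exact dvd_zero _
  obtain ⟨Q', hQ'⟩ := (Polynomial.C_dvd_iff_dvd_coeff _ _).mpr hall
  refine ⟨Q.coeff i, Q', hQ', i, ?_⟩
  have h0 : Q.coeff i ≠ 0 := Polynomial.mem_support_iff.mp hi
  have h1 : Q.coeff i = Q.coeff i * Q'.coeff i := by
    conv_lhs => rw [hQ', Polynomial.coeff_C_mul]
  have h2 : Q'.coeff i = 1 := by
    have : Q.coeff i * 1 = Q.coeff i * Q'.coeff i := by rw [mul_one]; exact h1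
    exact (mul_left_cancel₀ h0 this).symm
  rw [h2]; exact isUnit_one

/-- Gauss' lemma: a product of primitive polynomials is primitive. -/
theorem prod_primitive {ι : Type*} (s : Finset ι) (Q : ι → A[X])
    (h : ∀ i ∈ s, ∃ k, IsUnit ((Q i).coeff k)) : ∃ k, IsUnit ((∏ i ∈ s, Q i).coeff k) := by
  classical
  have hne : (∏ i ∈ s, Q i).map (IsLocalRing.residue A) ≠ 0 := by
    rw [Polynomial.map_prod]
    refine Finset.prod_ne_zero_iff.mpr fun i hi => ?_
    obtain ⟨k, hk⟩ := h i hi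
    intro h0
    have h1 : ((Q i).map (IsLocalRing.residue A)).coeff k = 0 := by rw [h0]; simp
    rw [Polynomial.coeff_map, IsLocalRing.residue_eq_zero_iff] at h1
    exact (IsLocalRing.mem_maximalIdeal _).mp h1 hk
  obtain ⟨k, hk⟩ : ∃ k, ((∏ i ∈ s, Q i).map (IsLocalRing.residue A)).coeff k ≠ 0 := by
    by_contra hcon
    push_neg at hcon
    exact hne (Polynomial.ext fun k => by rw [hcon k]; simp)
  refine ⟨k, ?_⟩
  rw [Polynomial.coeff_map] at hk
  by_contra hu
  exact hk ((IsLocalRing.residue_eq_zero_iff _).mpr ((IsLocalRing.mem_maximalIdeal _).mpr hu))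

open Classical in
/-- `∏_{μ ≠ 1} (1 - μ) = N`. -/
theorem prod_one_sub_eq (N : ℕ) (hN : 0 < N) (ζ : A) (hζ : IsPrimitiveRoot ζ N) :
    ∏ μ ∈ (nthRootsFinset N (1 : A)).erase 1, (1 - μ) = (N : A) := by
  have h1 : (X ^ N - 1 : A[X]) = ∏ μ ∈ nthRootsFinset N (1 : A), (X - C μ) :=
    X_pow_sub_one_eq_prod hN hζ
  have hmem : (1 : A) ∈ nthRootsFinset N (1 : A) := by
    rw [mem_nthRootsFinset hN]; exact one_pow N
  rw [← Finset.mul_prod_erase _ _ hmem] at h1
  have h2 : (X ^ N - 1 : A[X]) = (X - C 1) * ∑ i ∈ Finset.range N, X ^ i := by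
    rw [C_1, mul_comm]; exact (geom_sum_mul X N).symm
  rw [h2] at h1
  have h3 := mul_left_cancel₀ (X_sub_C_ne_zero (1 : A)) h1
  have h4 := congrArg (Polynomial.eval 1) h3
  rw [Polynomial.eval_finsetSum, Polynomial.eval_prod] at h4
  simp only [eval_pow, eval_X, one_pow, Finset.sum_const, Finset.card_range, nsmul_eq_mul, mul_one,
    eval_sub, eval_C] at h4
  exact h4.symm

theorem ev_core (N : ℕ) (hN : 0 < N) (ζ : A) (hζ : IsPrimitiveRoot ζ N) (P1 P2 : A[X])
    (h1 : P1.Monic) (h2 : P2.Monic) (hd : P1.natDegree = P2.natDegree) (ϖ : A)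
    (h : ∀ i, ϖ ∣ (P1 ^ N - P2 ^ N).coeff i) (i : ℕ) : ϖ ∣ (N : A) * (P1 - P2).coeff i := by
  classical
  by_cases h12 : P1 - P2 = 0
  · rw [h12]; simp
  set R := nthRootsFinset N (1 : A) with hR
  have hmem : (1 : A) ∈ R := by
    rw [hR, mem_nthRootsFinset hN]; exact one_pow N
  -- factorisation
  have hfac : P1 ^ N - P2 ^ N = ∏ μ ∈ R, (P1 - C μ * P2) := by
    have hζ' : IsPrimitiveRoot (C ζ : A[X]) N := hζ.map_of_injective C_injective
    rw [hζ'.pow_sub_pow_eq_prod_sub_mul P1 P2 hN]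
    refine (Finset.prod_nbij (fun μ => C μ) ?_ ?_ ?_ ?_).symm
    · intro μ hμ
      rw [hR, mem_nthRootsFinset hN] at hμ
      rw [mem_nthRootsFinset hN, ← C_pow, hμ, C_1]
    · intro a _ b _ hab
      exact C_injective hab
    · intro ν hν
      have hν' := (mem_nthRootsFinset hN (1 : A[X])).mp hν
      have : NeZero N := ⟨hN.ne'⟩
      obtain ⟨k, -, hk⟩ := hζ'.eq_pow_of_pow_eq_one (ξ := ν) hν'
      refine ⟨ζ ^ k, ?_, ?_⟩
      · have : (ζ ^ k) ^ N = 1 := by rw [← pow_mul, mul_comm, pow_mul, hζ.pow_eq_one, one_pow]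
        exact (mem_nthRootsFinset hN (1 : A)).mpr this
      · rw [← hk]; exact C_pow
    · intro μ _; rfl
  set d := P1.natDegree with hdd
  have hlead : ∀ μ : A, (P1 - C μ * P2).coeff d = 1 - μ := by
    intro μ
    rw [coeff_sub, coeff_C_mul]
    have e1 : P1.coeff d = 1 := h1.coeff_natDegree
    have e2 : P2.coeff d = 1 := by rw [hd]; exact h2.coeff_natDegree
    rw [e1, e2, mul_one]
  have hne : ∀ μ ∈ R, P1 - C μ * P2 ≠ 0 := by
    intro μ _ h0
    by_cases hμ : μ = 1
    · apply h12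
      rw [← h0, hμ, C_1, one_mul]
    · have := hlead μ
      rw [h0, coeff_zero] at this
      exact hμ (sub_eq_zero.mp this.symm).symm
  choose! a Q' hQ hprim using fun μ (hμ : μ ∈ R) => exists_content (P1 - C μ * P2) (hne μ hμ)
  obtain ⟨k, hk⟩ := prod_primitive R Q' hprim
  have hprod : P1 ^ N - P2 ^ N = C (∏ μ ∈ R, a μ) * ∏ μ ∈ R, Q' μ := by
    rw [hfac, map_prod, ← Finset.prod_mul_distrib]
    exact Finset.prod_congr rfl fun μ hμ => hQ μ hμ
  have hϖ : ϖ ∣ ∏ μ ∈ R, a μ := by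
    have := h k
    rw [hprod, coeff_C_mul] at this
    exact (hk.dvd_mul_right).mp this
  rw [← Finset.mul_prod_erase _ _ hmem] at hϖ
  have hdiv : ∏ μ ∈ R.erase 1, a μ ∣ (N : A) := by
    rw [← prod_one_sub_eq N hN ζ hζ]
    refine Finset.prod_dvd_prod_of_dvd _ _ fun μ hμ => ?_
    have hμR : μ ∈ R := Finset.mem_of_mem_erase hμ
    rw [← hlead μ, hQ μ hμR, coeff_C_mul]
    exact dvd_mul_right _ _
  have ha1 : a 1 ∣ (P1 - P2).coeff i := by
    have := hQ 1 hmem
    rw [C_1, one_mul] at this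
    rw [this, coeff_C_mul]
    exact dvd_mul_right _ _
  calc ϖ ∣ a 1 * ∏ μ ∈ R.erase 1, a μ := hϖ
    _ ∣ (P1 - P2).coeff i * (N : A) := mul_dvd_mul ha1 hdiv
    _ = (N : A) * (P1 - P2).coeff i := mul_comm _ _

end Fermat.Agent.S33.EV
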